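/-
S55 (Poitou–Tate), level 1: cone ("compactly supported") cochains, cup products with values in
`k(χ)`, traces, and the four duality properties used by the dévissage.
Owner: helper49.  Plan: NOTES/plan/S55.md.

Conventions (all cochains are inhomogeneous, low-degree Mathlib shapes `G → M`, `G × G → M`,
`G × G × G → M`):
* global cochains are of level `S` (prelude `IsLevelConstantS₁/₂`, here `IsLevS₃`);
* local cochains at `q ∈ S` live on `Gl q = Gal(Q̄_q/ℚ_q)` and are level constant in the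
  prelude's sense (`IsLevelConstant₁/₂ (rl q)`), with values in the same type `M`;
* cone: `C^n_c = C^n_S × ∏_{q ∈ S} C^{n-1}_q`, `d (f, g) = (d f, res f - d g)`;
  a cone cocycle is a pair with `d f = 0` and `res_q f = d g_q`.
-/
import Fermat.Agent.S55.Defs

set_option autoImplicit false

open CategoryTheory Module groupCohomology ExtCitation

noncomputable section

namespace Fermat.Agent.S55

variable {k : Type} [Field k]

/-- The local Galois group at `q`. -/
abbrev Gl (q : Nat.Primes) : Type := primeLocalGaloisGroup q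

/-- The map `Gal(Q̄_q/ℚ_q) → Gal(Q̄/ℚ)`. -/
abbrev rl (q : Nat.Primes) : Gl q →* GQ := primeLocalToGlobal q

/-! ### Differentials, written out -/

section diff

variable (M : Rep.{0} k GQ)

/-- `d⁰ : M → (G → M)`. -/
def dZero (m : M) : GQ → M := fun g => M.ρ g m - m

/-- `d¹ : (G → M) → (G × G → M)`. -/
def dOne (f : GQ → M) : GQ × GQ → M := fun x => M.ρ x.1 (f x.2) - f (x.1 * x.2) + f x.1

/-- `d² : (G × G → M) → (G × G × G → M)`. -/
def dTwo (f : GQ × GQ → M) : GQ × GQ × GQ → M := fun x =>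
  M.ρ x.1 (f (x.2.1, x.2.2)) - f (x.1 * x.2.1, x.2.2) + f (x.1, x.2.1 * x.2.2) - f (x.1, x.2.1)

/-- `d³ : (G × G × G → M) → (G × G × G × G → M)`. -/
def dThree (f : GQ × GQ × GQ → M) : GQ × GQ × GQ × GQ → M := fun x =>
  M.ρ x.1 (f (x.2.1, x.2.2.1, x.2.2.2)) - f (x.1 * x.2.1, x.2.2.1, x.2.2.2)
    + f (x.1, x.2.1 * x.2.2.1, x.2.2.2) - f (x.1, x.2.1, x.2.2.1 * x.2.2.2)
    + f (x.1, x.2.1, x.2.2.1)

/-- Local `d⁰` at `q` (the local group acts through `rl q`). -/
def dZeroL (q : Nat.Primes) (m : M) : Gl q → M := fun h => M.ρ (rl q h) m - m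

/-- Local `d¹` at `q`. -/
def dOneL (q : Nat.Primes) (f : Gl q → M) : Gl q × Gl q → M :=
  fun x => M.ρ (rl q x.1) (f x.2) - f (x.1 * x.2) + f x.1

/-- Local `d²` at `q`. -/
def dTwoL (q : Nat.Primes) (f : Gl q × Gl q → M) : Gl q × Gl q × Gl q → M := fun x =>
  M.ρ (rl q x.1) (f (x.2.1, x.2.2)) - f (x.1 * x.2.1, x.2.2) + f (x.1, x.2.1 * x.2.2)
    - f (x.1, x.2.1)

end diff

/-! ### Level conditions -/

/-- Level-`S` constancy for functions of three variables. -/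
def IsLevS₃ (S : Finset Nat.Primes) {X : Type*} (f : GQ × GQ × GQ → X) : Prop :=
  ∃ F : IntermediateField ℚ (AlgebraicClosure ℚ), F.IsUnramifiedOutside S ∧
    ∀ g₁ g₂ g₃ s₁ s₂ s₃ : GQ, s₁ ∈ F.fixingSubgroup → s₂ ∈ F.fixingSubgroup →
      s₃ ∈ F.fixingSubgroup → f (g₁ * s₁, g₂ * s₂, g₃ * s₃) = f (g₁, g₂, g₃)

/-- Restriction of a global function of one variable to the local group at `q`. -/
def resOne (q : Nat.Primes) {X : Type*} (f : GQ → X) : Gl q → X := fun h => f (rl q h)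

/-- Restriction of a global function of two variables to the local group at `q`. -/
def resTwo (q : Nat.Primes) {X : Type*} (f : GQ × GQ → X) : Gl q × Gl q → X :=
  fun x => f (rl q x.1, rl q x.2)

/-- Restriction of a global function of three variables to the local group at `q`. -/
def resThree (q : Nat.Primes) {X : Type*} (f : GQ × GQ × GQ → X) : Gl q × Gl q × Gl q → X :=
  fun x => f (rl q x.1, rl q x.2.1, rl q x.2.2)

/-! ### Global cocycles and coboundaries of level `S` -/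

section globalCocycles

variable (S : Finset Nat.Primes) (M : Rep.{0} k GQ)

/-- Level-`S` 1-cocycles. -/
def IsZ1S (b : GQ → M) : Prop := dOne M b = 0 ∧ IsLevelConstantS₁ S b

/-- Level-`S` 2-cocycles. -/
def IsZ2S (a : GQ × GQ → M) : Prop := dTwo M a = 0 ∧ IsLevelConstantS₂ S a

/-- Level-`S` 2-coboundaries. -/
def IsB2S (a : GQ × GQ → M) : Prop := ∃ f : GQ → M, IsLevelConstantS₁ S f ∧ dOne M f = a

end globalCocycles

/-! ### Cone cochains -/

section cone

variable (S : Finset Nat.Primes) (M : Rep.{0} k GQ)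

/-- Cone 1-cochains: a global 1-cochain and a local 0-cochain at each `q ∈ S`. -/
abbrev C1c : Type := (GQ → M) × (∀ _ : ↥S, M)

/-- Cone 2-cochains. -/
abbrev C2c : Type := (GQ × GQ → M) × (∀ q : ↥S, Gl q.1 → M)

/-- Cone 3-cochains. -/
abbrev C3c : Type := (GQ × GQ × GQ → M) × (∀ q : ↥S, Gl q.1 × Gl q.1 → M)

/-- Cone 1-cocycles: `d f = 0`, `f` of level `S`, `res_q f = d m_q`. -/
def IsZ1c (y : C1c S M) : Prop :=
  IsZ1S S M y.1 ∧ ∀ q : ↥S, resOne q.1 y.1 = dZeroL M q.1 (y.2 q)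

/-- Cone 1-coboundaries: `(d m, (m)_q)`. -/
def IsB1c (y : C1c S M) : Prop :=
  ∃ m : M, y.1 = dZero M m ∧ ∀ q : ↥S, y.2 q = m

/-- Cone 2-cocycles: `d f = 0`, `f` of level `S`, `g_q` level constant, `res_q f = d g_q`. -/
def IsZ2c (x : C2c S M) : Prop :=
  IsZ2S S M x.1 ∧ ∀ q : ↥S, IsLevelConstant₁ (rl q.1) (x.2 q) ∧
    resTwo q.1 x.1 = dOneL M q.1 (x.2 q)

/-- Cone 2-coboundaries: `(d f, (res_q f - d m_q)_q)`, `f` of level `S`. -/
def IsB2c (x : C2c S M) : Prop :=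
  ∃ (f : GQ → M) (m : ∀ _ : ↥S, M), IsLevelConstantS₁ S f ∧ x.1 = dOne M f ∧
    ∀ q : ↥S, x.2 q = resOne q.1 f - dZeroL M q.1 (m q)

/-- Cone 3-cocycles. -/
def IsZ3c (x : C3c S M) : Prop :=
  (dThree M x.1 = 0 ∧ IsLevS₃ S x.1) ∧ ∀ q : ↥S, IsLevelConstant₂ (rl q.1) (x.2 q) ∧
    resThree q.1 x.1 = dTwoL M q.1 (x.2 q)

/-- Cone 3-coboundaries: `(d f, (res_q f - d g_q)_q)`, `f` of level `S`, `g_q` level constant. -/
def IsB3c (x : C3c S M) : Prop :=
  ∃ (f : GQ × GQ → M) (g : ∀ q : ↥S, Gl q.1 → M), IsLevelConstantS₂ S f ∧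
    (∀ q : ↥S, IsLevelConstant₁ (rl q.1) (g q)) ∧ x.1 = dTwo M f ∧
    ∀ q : ↥S, x.2 q = resTwo q.1 f - dOneL M q.1 (g q)

end cone

/-! ### The pairing `M × M' → k(χ)` and the cup products into cone 3-cochains of `k(χ)` -/

section cup

variable (S : Finset Nat.Primes) (χ : GQ →* kˣ) (M : Rep.{0} k GQ)

/-- The twisted dual `M' = Hom(M, k)(χ)`. -/
abbrev Md : Rep k GQ := M.dualTwist χ

/-- The coefficient module `k(χ)`. -/
abbrev kχ : Rep k GQ := ofChar χ

/-- Evaluation `M × M' → k`. -/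
def ev (m : M) (φ : Md χ M) : k := (show Module.Dual k M from φ) m

/-- Cone on the left, degrees `(2, 1)`: `(f, g) ∪ b = (f ∪ b, g ∪ res b)`. -/
def cupA2 (x : C2c S M) (b : GQ → Md χ M) : C3c S (kχ χ) :=
  (fun t => ev χ M (x.1 (t.1, t.2.1)) ((Md χ M).ρ (t.1 * t.2.1) (b t.2.2)),
   fun q t => ev χ M (x.2 q t.1) ((Md χ M).ρ (rl q.1 t.1) (b (rl q.1 t.2))))

/-- Cone on the left, degrees `(3, 0)`: `(f, h) ∪ m' = (f ∪ m', h ∪ m')`. -/
def cupA3 (x : C3c S M) (m' : Md χ M) : C3c S (kχ χ) :=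
  (fun t => ev χ M (x.1 t) ((Md χ M).ρ (t.1 * t.2.1 * t.2.2) m'),
   fun q t => ev χ M (x.2 q t) ((Md χ M).ρ (rl q.1 (t.1 * t.2)) m'))

/-- Cone on the right, degrees `(2, 1)`: `a ∪ (f', m') = (a ∪ f', res a ∪ m')`. -/
def cupB1 (a : GQ × GQ → M) (y : C1c S (Md χ M)) : C3c S (kχ χ) :=
  (fun t => ev χ M (a (t.1, t.2.1)) ((Md χ M).ρ (t.1 * t.2.1) (y.1 t.2.2)),
   fun q t => ev χ M (a (rl q.1 t.1, rl q.1 t.2)) ((Md χ M).ρ (rl q.1 (t.1 * t.2)) (y.2 q)))

/-- Cone on the right, degrees `(1, 2)`: `a ∪ (f', g') = (a ∪ f', - res a ∪ g')`. -/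
def cupB2 (a : GQ → M) (y : C2c S (Md χ M)) : C3c S (kχ χ) :=
  (fun t => ev χ M (a t.1) ((Md χ M).ρ t.1 (y.1 (t.2.1, t.2.2))),
   fun q t => - ev χ M (a (rl q.1 t.1)) ((Md χ M).ρ (rl q.1 t.1) (y.2 q t.2)))

end cup

/-! ### Traces and the four duality properties -/

section props

variable (S : Finset Nat.Primes) (χ : GQ →* kˣ)

/-- A trace: a linear functional on cone 3-cochains of `k(χ)` which kills the cone
3-coboundaries.  (Only its values on cone 3-cocycles matter.) -/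
structure Trace where
  /-- the functional -/
  toFun : C3c S (kχ χ) →ₗ[k] k
  /-- it kills coboundaries -/
  zero_of_isB3c : ∀ x : C3c S (kχ χ), IsB3c S (kχ χ) x → toFun x = 0

variable {S χ} (tr : Trace S χ) (M : Rep.{0} k GQ)

/-- `α²` is onto: every functional on `H¹_S(M')` is `b ↦ tr (x ∪ b)` for a cone 2-cocycle `x`
of `M`. -/
def AlphaTwoEpi : Prop :=
  ∀ φ : (GQ → Md χ M) →ₗ[k] k, (∀ m' : Md χ M, φ (dZero (Md χ M) m') = 0) →
    ∃ x : C2c S M, IsZ2c S M x ∧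
      ∀ b : GQ → Md χ M, IsZ1S S (Md χ M) b → tr.toFun (cupA2 S χ M x b) = φ b

/-- `α³` is injective: a cone 3-cocycle of `M` which pairs to zero with all invariants of `M'`
is a cone 3-coboundary. -/
def AlphaThreeMono : Prop :=
  ∀ x : C3c S M, IsZ3c S M x →
    (∀ m' : Md χ M, (∀ g : GQ, (Md χ M).ρ g m' = m') → tr.toFun (cupA3 S χ M x m') = 0) →
    IsB3c S M x

/-- `β¹` is onto: every functional on `H²_S(M)` is `a ↦ tr (a ∪ y)` for a cone 1-cocycle `y`
of `M'`. -/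
def BetaOneEpi : Prop :=
  ∀ φ : (GQ × GQ → M) →ₗ[k] k, (∀ a : GQ × GQ → M, IsB2S S M a → φ a = 0) →
    ∃ y : C1c S (Md χ M), IsZ1c S (Md χ M) y ∧
      ∀ a : GQ × GQ → M, IsZ2S S M a → tr.toFun (cupB1 S χ M a y) = φ a

/-- `β²` is injective: a cone 2-cocycle of `M'` which pairs to zero with all level-`S`
1-cocycles of `M` is a cone 2-coboundary. -/
def BetaTwoMono : Prop :=
  ∀ y : C2c S (Md χ M), IsZ2c S (Md χ M) y →
    (∀ a : GQ → M, IsZ1S S M a → tr.toFun (cupB2 S χ M a y) = 0) →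
    IsB2c S (Md χ M) y

end props

/-! ### Admissibility, short exact sequences, permutation modules, dévissage classes -/

section classes

variable (S : Finset Nat.Primes)

/-- `M` has level `S`: some finite extension of `ℚ` unramified outside `S` acts trivially. -/
def Lev (M : Rep.{0} k GQ) : Prop :=
  ∃ F : IntermediateField ℚ (AlgebraicClosure ℚ), F.IsUnramifiedOutside S ∧
    ∀ s ∈ F.fixingSubgroup, ∀ m : M, M.ρ s m = m

/-- The character `χ` has level `S`. -/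
def LevChar (χ : GQ →* kˣ) : Prop :=
  ∃ F : IntermediateField ℚ (AlgebraicClosure ℚ), F.IsUnramifiedOutside S ∧
    ∀ s ∈ F.fixingSubgroup, χ s = 1

/-- A short exact sequence `0 → M₁ → M → M₂ → 0` of representations. -/
def IsSES {M₁ M M₂ : Rep.{0} k GQ} (i : M₁ ⟶ M) (π : M ⟶ M₂) : Prop :=
  Function.Injective i.hom ∧ Function.Surjective π.hom ∧
    ∀ m : M, π.hom m = 0 ↔ ∃ m₁ : M₁, i.hom m₁ = m

/-- `M` is a retract of `N`. -/
def IsRetract (M N : Rep.{0} k GQ) : Prop :=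
  ∃ (i : M ⟶ N) (r : N ⟶ M), ∀ m : M, r.hom (i.hom m) = m

/-- The permutation module `k[G_ℚ/G_K]`. -/
abbrev permRep (k : Type) [Field k] (K : IntermediateField ℚ (AlgebraicClosure ℚ)) :
    Rep.{0} k GQ :=
  Rep.ofMulAction k GQ (GQ ⧸ K.fixingSubgroup)

/-- Modules built from `0` by successive extensions with SUBmodule `≅ k[G/G_K]`. -/
inductive DevL (k : Type) [Field k] (S : Finset Nat.Primes)
    (K : IntermediateField ℚ (AlgebraicClosure ℚ)) : Rep.{0} k GQ → Prop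
  | zero (M : Rep.{0} k GQ) : Subsingleton M → DevL k S K M
  | ext (M₁ M M₂ : Rep.{0} k GQ) (i : M₁ ⟶ M) (π : M ⟶ M₂) : IsSES i π →
      Nonempty (M₁ ≅ permRep k K) → Lev S M₁ → Lev S M → Lev S M₂ →
      DevL k S K M₂ → DevL k S K M

/-- Modules built from `0` by successive extensions with QUOTIENT `≅ k[G/G_K]`. -/
inductive DevR (k : Type) [Field k] (S : Finset Nat.Primes)
    (K : IntermediateField ℚ (AlgebraicClosure ℚ)) : Rep.{0} k GQ → Prop
  | zero (M : Rep.{0} k GQ) : Subsingleton M → DevR k S K M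
  | ext (M₁ M M₂ : Rep.{0} k GQ) (i : M₁ ⟶ M) (π : M ⟶ M₂) : IsSES i π →
      Nonempty (M₂ ≅ permRep k K) → Lev S M₁ → Lev S M → Lev S M₂ →
      DevR k S K M₁ → DevR k S K M

/-- The base fields: finite, unramified outside `S`, containing a primitive `p`-th root of
unity. -/
def IsBaseField (p : ℕ) (K : IntermediateField ℚ (AlgebraicClosure ℚ)) : Prop :=
  K.IsUnramifiedOutside S ∧ ∃ ζ : AlgebraicClosure ℚ, ζ ∈ K ∧ IsPrimitiveRoot ζ p

end classes

end Fermat.Agent.S55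

end
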