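/-
S55 (Poitou–Tate), level 1: the exact statements of the work packages E1–E5 and of the two
bridge lemmas.  A package is DONE when `theorem … : Stmt_X := …` is landed sorry-free.
Owner of the interfaces: helper49.  Plan: NOTES/plan/S55.md.
-/
import Fermat.Agent.S55.Coh.Defs

set_option autoImplicit false

open CategoryTheory Module groupCohomology ExtCitation

namespace Fermat.Agent.S55

/-- **E1α** (four-lemma step, cone on the left).  For a short exact sequence
`0 → M₁ → M → M₂ → 0` of modules of level `S` and ANY trace: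
`α²epi(M₁) ∧ α³mono(M₁) ∧ α²epi(M₂) ⟹ α²epi(M)`. -/
def Stmt_E1A : Prop :=
  ∀ (k : Type) [Field k] (S : Finset Nat.Primes) (χ : GQ →* kˣ) (tr : Trace S χ),
    LevChar S χ →
    ∀ (M₁ M M₂ : Rep.{0} k GQ) (i : M₁ ⟶ M) (π : M ⟶ M₂), IsSES i π →
      Lev S M₁ → Lev S M → Lev S M₂ →
      AlphaTwoEpi tr M₁ → AlphaThreeMono tr M₁ → AlphaTwoEpi tr M₂ → AlphaTwoEpi tr M

/-- **E1β** (four-lemma step, cone on the right).
`β¹epi(M₁) ∧ β¹epi(M₂) ∧ β²mono(M₂) ⟹ β¹epi(M)`. -/
def Stmt_E1B : Prop :=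
  ∀ (k : Type) [Field k] (S : Finset Nat.Primes) (χ : GQ →* kˣ) (tr : Trace S χ),
    LevChar S χ →
    ∀ (M₁ M M₂ : Rep.{0} k GQ) (i : M₁ ⟶ M) (π : M ⟶ M₂), IsSES i π →
      Lev S M₁ → Lev S M → Lev S M₂ →
      BetaOneEpi tr M₁ → BetaOneEpi tr M₂ → BetaTwoMono tr M₂ → BetaOneEpi tr M

/-- **E2** (naturality): the four properties pass to retracts. -/
def Stmt_E2 : Prop :=
  ∀ (k : Type) [Field k] (S : Finset Nat.Primes) (χ : GQ →* kˣ) (tr : Trace S χ)
    (M N : Rep.{0} k GQ), IsRetract M N →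
      (AlphaTwoEpi tr N → AlphaTwoEpi tr M) ∧ (AlphaThreeMono tr N → AlphaThreeMono tr M) ∧
      (BetaOneEpi tr N → BetaOneEpi tr M) ∧ (BetaTwoMono tr N → BetaTwoMono tr M)

/-- **E3** (representation theory).  In characteristic `p`, a finite-dimensional module of
level `S ∋ p` is a retract of a module which is built (from both sides) out of copies of one
permutation module `k[G_ℚ/G_K]`, `K` a base field (`K = L^P`, `L = ℚ(M, μ_p)`, `P` a `p`-Sylow
subgroup of `Gal(L/ℚ)`; the module is `Ind_K^ℚ Res M`). -/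
def Stmt_E3 : Prop :=
  ∀ (p : ℕ) [Fact p.Prime] (k : Type) [Field k] [CharP k p] (S : Finset Nat.Primes)
    (M : Rep.{0} k GQ) [FiniteDimensional k M], pPrime p ∈ S → Lev S M →
    ∃ K : IntermediateField ℚ (AlgebraicClosure ℚ), IsBaseField S p K ∧
      ∃ N : Rep.{0} k GQ, IsRetract M N ∧ DevL k S K N ∧ DevR k S K N

/-- **E4** (BASE = class field theory of exponent `p` over the base fields).  For every base
field `K` there is a trace for which the permutation module `𝔽_p[G_ℚ/G_K]` has the four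
properties.  (The natural trace, `Σ_q inv_q` on the image of the local `H²`, works for all `K`
at once; only this weaker form is used.) -/
def Stmt_E4 : Prop :=
  ∀ (p : ℕ) [Fact p.Prime], p ≠ 2 → ∀ S : Finset Nat.Primes, pPrime p ∈ S →
    ∀ K : IntermediateField ℚ (AlgebraicClosure ℚ), IsBaseField S p K →
      ∃ tr : Trace S (cycloChar p),
        AlphaTwoEpi tr (permRep (ZMod p) K) ∧ AlphaThreeMono tr (permRep (ZMod p) K) ∧
        BetaOneEpi tr (permRep (ZMod p) K) ∧ BetaTwoMono tr (permRep (ZMod p) K)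

/-- **E5** (cone sequence + adjointness + bridge to the prelude's `sha₁`, `sha₂`).
For ANY trace: `α²epi(M) ∧ β¹epi(M)` give the perfect pairing of the frozen statement. -/
def Stmt_E5 : Prop :=
  ∀ (p : ℕ) [Fact p.Prime] (S : Finset Nat.Primes) (M : Rep.{0} (ZMod p) GQ), Hyp p S M →
    ∀ tr : Trace S (cycloChar p), AlphaTwoEpi tr M → BetaOneEpi tr M →
    ∃ B : sha₁ S (M.dualTwist (cycloChar p)) →ₗ[ZMod p] sha₂ S M →ₗ[ZMod p] ZMod p,
      (∀ y, (∀ x, B y x = 0) → y = 0) ∧ (∀ x, (∀ y, B y x = 0) → x = 0)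

/-- **BR1** (bridge): the hypotheses of the frozen statement give level `S`. -/
def Stmt_lev : Prop :=
  ∀ (p : ℕ) [Fact p.Prime] (S : Finset Nat.Primes) (M : Rep.{0} (ZMod p) GQ), Hyp p S M →
    Lev S M

/-- **BR2** (bridge): the mod `p` cyclotomic character has level `S` when `p ∈ S`. -/
def Stmt_levChar : Prop :=
  ∀ (p : ℕ) [Fact p.Prime] (S : Finset Nat.Primes), pPrime p ∈ S → LevChar S (cycloChar p)

end Fermat.Agent.S55
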