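/-
S55 (Poitou–Tate), toolkit for the cochain-level proofs (E1A, E1B, E2, E5):
evaluation pairing and dual maps, differentials (`d ∘ d = 0`, naturality, restriction).
Owner: helper49.
-/
import Fermat.Agent.S55.Coh.Defs

set_option autoImplicit false

open CategoryTheory Module groupCohomology ExtCitation

noncomputable section

namespace Fermat.Agent.S55

variable {k : Type} [Field k]

/-! ### The evaluation pairing -/

section evLemmas

variable (χ : GQ →* kˣ) (M : Rep.{0} k GQ)

@[simp] lemma ev_zero_left (φ : Md χ M) : ev χ M 0 φ = 0 := by simp [ev]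

@[simp] lemma ev_zero_right (m : M) : ev χ M m 0 = 0 := rfl

lemma ev_add_left (m₁ m₂ : M) (φ : Md χ M) :
    ev χ M (m₁ + m₂) φ = ev χ M m₁ φ + ev χ M m₂ φ := by simp [ev]

lemma ev_sub_left (m₁ m₂ : M) (φ : Md χ M) :
    ev χ M (m₁ - m₂) φ = ev χ M m₁ φ - ev χ M m₂ φ := by simp [ev]

lemma ev_neg_left (m : M) (φ : Md χ M) : ev χ M (-m) φ = - ev χ M m φ := by simp [ev]

lemma ev_smul_left (c : k) (m : M) (φ : Md χ M) : ev χ M (c • m) φ = c * ev χ M m φ := by
  simp [ev]

lemma ev_add_right (m : M) (φ₁ φ₂ : Md χ M) :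
    ev χ M m (φ₁ + φ₂) = ev χ M m φ₁ + ev χ M m φ₂ := rfl

lemma ev_sub_right (m : M) (φ₁ φ₂ : Md χ M) :
    ev χ M m (φ₁ - φ₂) = ev χ M m φ₁ - ev χ M m φ₂ := rfl

lemma ev_neg_right (m : M) (φ : Md χ M) : ev χ M m (-φ) = - ev χ M m φ := rfl

lemma ev_smul_right (c : k) (m : M) (φ : Md χ M) : ev χ M m (c • φ) = c * ev χ M m φ := rfl

/-- The action of `g` on `M' = Hom(M, k)(χ)`. -/
lemma Md_rho_apply (g : GQ) (φ : Md χ M) (m : M) :
    ev χ M m ((Md χ M).ρ g φ) = (χ g : k) * ev χ M (M.ρ g⁻¹ m) φ := by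
  change ((M.ρ.dual.twist χ) g φ) m = _
  rw [Representation.twist_apply_apply]
  simp [ev, Representation.dual_apply, Dual.transpose_apply]

/-- Equivariance of the pairing: `⟨g m, g φ⟩ = χ(g) ⟨m, φ⟩`. -/
lemma ev_rho (g : GQ) (m : M) (φ : Md χ M) :
    ev χ M (M.ρ g m) ((Md χ M).ρ g φ) = (χ g : k) * ev χ M m φ := by
  rw [Md_rho_apply]
  simp

/-- The action of `g` on `k(χ)`. -/
lemma kχ_rho (g : GQ) (c : kχ χ) : (kχ χ).ρ g c = ((χ g : k) * (show k from c) : k) := rfl

/-- `M'` is separated by evaluation. -/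
lemma Md_ext {φ ψ : Md χ M} (h : ∀ m : M, ev χ M m φ = ev χ M m ψ) : φ = ψ :=
  LinearMap.ext h

end evLemmas

/-! ### Dual maps -/

section dualMap

variable (χ : GQ →* kˣ) {A B : Rep.{0} k GQ}

/-- The map `B' → A'` dual to a morphism `u : A ⟶ B`, as a linear map. -/
def dMap (u : A ⟶ B) : Md χ B →ₗ[k] Md χ A where
  toFun φ := (show Module.Dual k B from φ).comp u.hom.toLinearMap
  map_add' _ _ := rfl
  map_smul' _ _ := rfl

lemma ev_dMap (u : A ⟶ B) (a : A) (φ : Md χ B) :
    ev χ A a (dMap χ u φ) = ev χ B (u.hom a) φ := rfl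

/-- The dual map is equivariant. -/
lemma dMap_rho (u : A ⟶ B) (g : GQ) (φ : Md χ B) :
    dMap χ u ((Md χ B).ρ g φ) = (Md χ A).ρ g (dMap χ u φ) := by
  apply Md_ext
  intro a
  rw [ev_dMap, Md_rho_apply, Md_rho_apply, ev_dMap, Rep.hom_comm_apply]

/-- If `u` is injective, the dual map is surjective. -/
lemma dMap_surjective (u : A ⟶ B) (hu : Function.Injective u.hom) :
    Function.Surjective (dMap χ u) := by
  intro ψ
  obtain ⟨r, hr⟩ := LinearMap.exists_leftInverse_of_injective u.hom.toLinearMap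
    (LinearMap.ker_eq_bot.2 hu)
  refine ⟨(show Module.Dual k A from ψ).comp r, ?_⟩
  apply Md_ext
  intro a
  rw [ev_dMap]
  change (show Module.Dual k A from ψ) (r (u.hom a)) = _
  have : r (u.hom a) = a := congrArg (fun f : A →ₗ[k] A => f a) hr
  rw [this]
  rfl

/-- If `u` is surjective, the dual map is injective. -/
lemma dMap_injective (u : A ⟶ B) (hu : Function.Surjective u.hom) :
    Function.Injective (dMap χ u) := by
  intro φ ψ h
  apply Md_ext
  intro b
  obtain ⟨a, rfl⟩ := hu b
  rw [← ev_dMap, ← ev_dMap, h]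

/-- Exactness of the dual sequence in the middle. -/
lemma dMap_exact {M₁ M M₂ : Rep.{0} k GQ} (i : M₁ ⟶ M) (π : M ⟶ M₂) (h : IsSES i π)
    (φ : Md χ M) (hφ : dMap χ i φ = 0) : ∃ φ₂ : Md χ M₂, dMap χ π φ₂ = φ := by
  obtain ⟨_, hπ, hex⟩ := h
  obtain ⟨s, hs⟩ := LinearMap.exists_rightInverse_of_surjective π.hom.toLinearMap
    (LinearMap.range_eq_top.2 hπ)
  refine ⟨(show Module.Dual k M from φ).comp s, ?_⟩
  apply Md_ext
  intro m
  rw [ev_dMap]
  change (show Module.Dual k M from φ) (s (π.hom m)) = (show Module.Dual k M from φ) m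
  have h1 : π.hom (s (π.hom m) - m) = 0 := by
    have : π.hom (s (π.hom m)) = π.hom m := congrArg (fun f : M₂ →ₗ[k] M₂ => f (π.hom m)) hs
    rw [map_sub, this, sub_self]
  obtain ⟨m₁, hm₁⟩ := (hex _).1 h1
  have h2 : (show Module.Dual k M from φ) (i.hom m₁) = 0 := by
    have := congrArg (fun ψ : Md χ M₁ => ev χ M₁ m₁ ψ) hφ
    exact this
  rw [hm₁, map_sub, sub_eq_zero] at h2
  exact h2

lemma dMap_comp_eq_zero {M₁ M M₂ : Rep.{0} k GQ} (i : M₁ ⟶ M) (π : M ⟶ M₂) (h : IsSES i π)
    (φ₂ : Md χ M₂) : dMap χ i (dMap χ π φ₂) = 0 := by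
  apply Md_ext
  intro m₁
  rw [ev_dMap, ev_dMap, ev_zero_right]
  have : π.hom (i.hom m₁) = 0 := (h.2.2 _).2 ⟨m₁, rfl⟩
  rw [this, ev_zero_left]

end dualMap

/-! ### Differentials: additivity, `d ∘ d = 0`, restriction, naturality -/

section diffLemmas

variable (M : Rep.{0} k GQ)

lemma dZero_add (m m' : M) : dZero M (m + m') = dZero M m + dZero M m' := by
  funext g; simp only [dZero, Pi.add_apply, map_add]; abel

lemma dZero_sub (m m' : M) : dZero M (m - m') = dZero M m - dZero M m' := by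
  funext g; simp only [dZero, Pi.sub_apply, map_sub]; abel

lemma dZero_smul (c : k) (m : M) : dZero M (c • m) = c • dZero M m := by
  funext g; simp only [dZero, Pi.smul_apply, map_smul, smul_sub]

@[simp] lemma dZero_zero : dZero M 0 = 0 := by
  funext g; simp [dZero]

lemma dOne_add (f f' : GQ → M) : dOne M (f + f') = dOne M f + dOne M f' := by
  funext x; simp only [dOne, Pi.add_apply, map_add]; abel

lemma dOne_sub (f f' : GQ → M) : dOne M (f - f') = dOne M f - dOne M f' := by
  funext x; simp only [dOne, Pi.sub_apply, map_sub]; abel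

lemma dOne_smul (c : k) (f : GQ → M) : dOne M (c • f) = c • dOne M f := by
  funext x; simp only [dOne, Pi.smul_apply, map_smul, smul_sub, smul_add]

@[simp] lemma dOne_zero : dOne M 0 = 0 := by
  funext x; simp [dOne]

lemma dTwo_add (f f' : GQ × GQ → M) : dTwo M (f + f') = dTwo M f + dTwo M f' := by
  funext x; simp only [dTwo, Pi.add_apply, map_add]; abel

lemma dTwo_sub (f f' : GQ × GQ → M) : dTwo M (f - f') = dTwo M f - dTwo M f' := by
  funext x; simp only [dTwo, Pi.sub_apply, map_sub]; abel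

@[simp] lemma dTwo_zero : dTwo M 0 = 0 := by
  funext x; simp [dTwo]

@[simp] lemma dThree_zero : dThree M 0 = 0 := by
  funext x; simp [dThree]

lemma dOne_dZero (m : M) : dOne M (dZero M m) = 0 := by
  funext x
  simp only [dOne, dZero, Pi.zero_apply, map_sub, map_mul, Module.End.mul_apply]
  abel

lemma dTwo_dOne (f : GQ → M) : dTwo M (dOne M f) = 0 := by
  funext x
  simp only [dTwo, dOne, Pi.zero_apply, map_sub, map_add, map_mul, Module.End.mul_apply,
    mul_assoc]
  abel

lemma dThree_dTwo (f : GQ × GQ → M) : dThree M (dTwo M f) = 0 := by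
  funext x
  simp only [dThree, dTwo, Pi.zero_apply, map_sub, map_add, map_mul, Module.End.mul_apply,
    mul_assoc]
  abel

variable (q : Nat.Primes)

lemma dZeroL_add (m m' : M) : dZeroL M q (m + m') = dZeroL M q m + dZeroL M q m' := by
  funext g; simp only [dZeroL, Pi.add_apply, map_add]; abel

lemma dZeroL_sub (m m' : M) : dZeroL M q (m - m') = dZeroL M q m - dZeroL M q m' := by
  funext g; simp only [dZeroL, Pi.sub_apply, map_sub]; abel

@[simp] lemma dZeroL_zero : dZeroL M q 0 = 0 := by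
  funext g; simp [dZeroL]

lemma dOneL_add (f f' : Gl q → M) : dOneL M q (f + f') = dOneL M q f + dOneL M q f' := by
  funext x; simp only [dOneL, Pi.add_apply, map_add]; abel

lemma dOneL_sub (f f' : Gl q → M) : dOneL M q (f - f') = dOneL M q f - dOneL M q f' := by
  funext x; simp only [dOneL, Pi.sub_apply, map_sub]; abel

@[simp] lemma dOneL_zero : dOneL M q 0 = 0 := by
  funext x; simp [dOneL]

lemma dTwoL_add (f f' : Gl q × Gl q → M) :
    dTwoL M q (f + f') = dTwoL M q f + dTwoL M q f' := by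
  funext x; simp only [dTwoL, Pi.add_apply, map_add]; abel

lemma dTwoL_sub (f f' : Gl q × Gl q → M) :
    dTwoL M q (f - f') = dTwoL M q f - dTwoL M q f' := by
  funext x; simp only [dTwoL, Pi.sub_apply, map_sub]; abel

@[simp] lemma dTwoL_zero : dTwoL M q 0 = 0 := by
  funext x; simp [dTwoL]

lemma dOneL_dZeroL (m : M) : dOneL M q (dZeroL M q m) = 0 := by
  funext x
  simp only [dOneL, dZeroL, Pi.zero_apply, map_sub, map_mul, Module.End.mul_apply]
  abel

lemma dTwoL_dOneL (f : Gl q → M) : dTwoL M q (dOneL M q f) = 0 := by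
  funext x
  simp only [dTwoL, dOneL, Pi.zero_apply, map_sub, map_add, map_mul, Module.End.mul_apply,
    mul_assoc]
  abel

/-! restriction commutes with the differentials -/

lemma resOne_dZero (m : M) : resOne q (dZero M m) = dZeroL M q m := rfl

lemma resTwo_dOne (f : GQ → M) : resTwo q (dOne M f) = dOneL M q (resOne q f) := by
  funext x; simp only [resTwo, dOne, dOneL, resOne, map_mul]

lemma resThree_dTwo (f : GQ × GQ → M) : resThree q (dTwo M f) = dTwoL M q (resTwo q f) := by
  funext x; simp only [resThree, dTwo, dTwoL, resTwo, map_mul]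

lemma resOne_add {X : Type} [Add X] (f f' : GQ → X) :
    resOne q (f + f') = resOne q f + resOne q f' := rfl

lemma resOne_sub {X : Type} [Sub X] (f f' : GQ → X) :
    resOne q (f - f') = resOne q f - resOne q f' := rfl

lemma resTwo_add {X : Type} [Add X] (f f' : GQ × GQ → X) :
    resTwo q (f + f') = resTwo q f + resTwo q f' := rfl

lemma resTwo_sub {X : Type} [Sub X] (f f' : GQ × GQ → X) :
    resTwo q (f - f') = resTwo q f - resTwo q f' := rfl

end diffLemmas

section naturality

variable {A B : Rep.{0} k GQ} (u : A ⟶ B)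

lemma dZero_comp (a : A) : dZero B (u.hom a) = fun g => u.hom (dZero A a g) := by
  funext g; simp only [dZero, map_sub, Rep.hom_comm_apply]

lemma dOne_comp (f : GQ → A) :
    dOne B (fun g => u.hom (f g)) = fun x => u.hom (dOne A f x) := by
  funext x; simp only [dOne, map_sub, map_add, Rep.hom_comm_apply]

lemma dTwo_comp (f : GQ × GQ → A) :
    dTwo B (fun x => u.hom (f x)) = fun x => u.hom (dTwo A f x) := by
  funext x; simp only [dTwo, map_sub, map_add, Rep.hom_comm_apply]

lemma dThree_comp (f : GQ × GQ × GQ → A) :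
    dThree B (fun x => u.hom (f x)) = fun x => u.hom (dThree A f x) := by
  funext x; simp only [dThree, map_sub, map_add, Rep.hom_comm_apply]

lemma dZeroL_comp (q : Nat.Primes) (a : A) :
    dZeroL B q (u.hom a) = fun g => u.hom (dZeroL A q a g) := by
  funext g; simp only [dZeroL, map_sub, Rep.hom_comm_apply]

lemma dOneL_comp (q : Nat.Primes) (f : Gl q → A) :
    dOneL B q (fun g => u.hom (f g)) = fun x => u.hom (dOneL A q f x) := by
  funext x; simp only [dOneL, map_sub, map_add, Rep.hom_comm_apply]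

lemma dTwoL_comp (q : Nat.Primes) (f : Gl q × Gl q → A) :
    dTwoL B q (fun x => u.hom (f x)) = fun x => u.hom (dTwoL A q f x) := by
  funext x; simp only [dTwoL, map_sub, map_add, Rep.hom_comm_apply]

end naturality

end Fermat.Agent.S55

end
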