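/-
S55 (Poitou–Tate), toolkit: level bookkeeping.  `NC S` (normal closure of a level field is a
level field) is a hypothesis here; it is supplied by BR (helper48).
Owner: helper49.
-/
import Fermat.Agent.S55.Coh.Basic

set_option autoImplicit false

open CategoryTheory Module groupCohomology ExtCitation

noncomputable section

namespace Fermat.Agent.S55

variable {k : Type} [Field k]

/-- **NC**: every level-`S` field is contained in a level-`S` field with normal fixing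
subgroup. -/
def NC (S : Finset Nat.Primes) : Prop :=
  ∀ F : IntermediateField ℚ (AlgebraicClosure ℚ), F.IsUnramifiedOutside S →
    ∃ F' : IntermediateField ℚ (AlgebraicClosure ℚ), F ≤ F' ∧ F'.IsUnramifiedOutside S ∧
      F'.fixingSubgroup.Normal

/-- **NCfin**: every finite extension is contained in a finite one with normal fixing
subgroup. -/
def NCfin : Prop :=
  ∀ F : IntermediateField ℚ (AlgebraicClosure ℚ), FiniteDimensional ℚ F →
    ∃ F' : IntermediateField ℚ (AlgebraicClosure ℚ), F ≤ F' ∧ FiniteDimensional ℚ F' ∧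
      F'.fixingSubgroup.Normal

section ncfin

/-- local instance: `Q̄/ℚ` is algebraic. -/
theorem h49_qbar_isAlgebraic : Algebra.IsAlgebraic ℚ (AlgebraicClosure ℚ) :=
  AlgebraicClosure.isAlgebraic ℚ

attribute [local instance] h49_qbar_isAlgebraic

/-- local instance: `Q̄` is an algebraic closure of `ℚ`. -/
theorem h49_qbar_isAlgClosure : IsAlgClosure ℚ (AlgebraicClosure ℚ) :=
  ⟨inferInstance, inferInstance⟩

attribute [local instance] h49_qbar_isAlgClosure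

/-- local instance: `Q̄/ℚ` is normal. -/
theorem h49_qbar_normal : Normal ℚ (AlgebraicClosure ℚ) :=
  IsAlgClosure.normal ℚ (AlgebraicClosure ℚ)

attribute [local instance] h49_qbar_normal

/-- local instance: `Q̄/ℚ` is Galois. -/
theorem h49_qbar_isGalois : IsGalois ℚ (AlgebraicClosure ℚ) := ⟨⟩

attribute [local instance] h49_qbar_isGalois

/-- **NCfin** holds: the normal closure of a finite extension. -/
theorem ncfin : NCfin := by
  intro F hF
  haveI := hF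
  haveI : Normal ℚ (IntermediateField.normalClosure ℚ F (AlgebraicClosure ℚ)) :=
    normalClosure.normal ℚ F _
  haveI : FiniteDimensional ℚ (IntermediateField.normalClosure ℚ F (AlgebraicClosure ℚ)) :=
    normalClosure.is_finiteDimensional ℚ F _
  refine ⟨IntermediateField.normalClosure ℚ F (AlgebraicClosure ℚ),
    IntermediateField.le_normalClosure F, inferInstance, ?_⟩
  rw [InfiniteGalois.normal_iff_isGalois]
  exact ⟨⟩

end ncfin

section global

variable {S : Finset Nat.Primes}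

lemma mem_fix_of_le {F F' : IntermediateField ℚ (AlgebraicClosure ℚ)} (h : F ≤ F') {s : GQ}
    (hs : s ∈ F'.fixingSubgroup) : s ∈ F.fixingSubgroup :=
  IntermediateField.fixingSubgroup_antitone h hs

lemma conj_mem_fix {F : IntermediateField ℚ (AlgebraicClosure ℚ)} (hn : F.fixingSubgroup.Normal)
    (g : GQ) {s : GQ} (hs : s ∈ F.fixingSubgroup) : g⁻¹ * s * g ∈ F.fixingSubgroup := by
  have := hn.conj_mem s hs g⁻¹
  simpa using this

/-- Two level fields have a common normal level field. -/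
lemma exists_common_level (hNC : NC S) {F₁ F₂ : IntermediateField ℚ (AlgebraicClosure ℚ)}
    (h₁ : F₁.IsUnramifiedOutside S) (h₂ : F₂.IsUnramifiedOutside S) :
    ∃ F : IntermediateField ℚ (AlgebraicClosure ℚ), F₁ ≤ F ∧ F₂ ≤ F ∧
      F.IsUnramifiedOutside S ∧ F.fixingSubgroup.Normal := by
  obtain ⟨F, hle, hF, hn⟩ := hNC (F₁ ⊔ F₂) (h₁.sup h₂)
  exact ⟨F, le_sup_left.trans hle, le_sup_right.trans hle, hF, hn⟩

lemma levS₁_neg {X : Type} [Neg X] {f : GQ → X} (hf : IsLevelConstantS₁ S f) :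
    IsLevelConstantS₁ S (-f) := hf.comp (fun x => -x)

lemma levS₁_sub {X : Type} [AddGroup X] {f f' : GQ → X}
    (hf : IsLevelConstantS₁ S f) (hf' : IsLevelConstantS₁ S f') :
    IsLevelConstantS₁ S (f - f') := by
  rw [sub_eq_add_neg]; exact hf.add (levS₁_neg hf')

lemma levS₂_neg {X : Type} [Neg X] {f : GQ × GQ → X}
    (hf : IsLevelConstantS₂ S f) : IsLevelConstantS₂ S (-f) := hf.comp (fun x => -x)

lemma levS₂_sub {X : Type} [AddGroup X] {f f' : GQ × GQ → X}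
    (hf : IsLevelConstantS₂ S f) (hf' : IsLevelConstantS₂ S f') :
    IsLevelConstantS₂ S (f - f') := by
  rw [sub_eq_add_neg]; exact hf.add (levS₂_neg hf')

lemma levS₃_comp {X Y : Type} {f : GQ × GQ × GQ → X} (hf : IsLevS₃ S f) (φ : X → Y) :
    IsLevS₃ S (fun x => φ (f x)) := by
  obtain ⟨F, hF, h⟩ := hf
  exact ⟨F, hF, fun g₁ g₂ g₃ s₁ s₂ s₃ h₁ h₂ h₃ => by simp only [h g₁ g₂ g₃ s₁ s₂ s₃ h₁ h₂ h₃]⟩

lemma levS₁_comp {X Y : Type} {f : GQ → X} (hf : IsLevelConstantS₁ S f)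
    (φ : X → Y) : IsLevelConstantS₁ S (fun x => φ (f x)) := hf.comp φ

lemma levS₂_comp {X Y : Type} {f : GQ × GQ → X} (hf : IsLevelConstantS₂ S f)
    (φ : X → Y) : IsLevelConstantS₂ S (fun x => φ (f x)) := hf.comp φ

variable (M : Rep.{0} k GQ)

/-- `d⁰ m` is of level `S`. -/
lemma isLevelConstantS₁_dZero (hM : Lev S M) (m : M) : IsLevelConstantS₁ S (dZero M m) := by
  obtain ⟨F, hF, h⟩ := hM
  refine ⟨F, hF, fun g s hs => ?_⟩
  simp only [dZero, map_mul, Module.End.mul_apply, h s hs m]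

/-- `d¹` preserves level `S`. -/
lemma isLevelConstantS₂_dOne (hNC : NC S) (hM : Lev S M) {f : GQ → M}
    (hf : IsLevelConstantS₁ S f) : IsLevelConstantS₂ S (dOne M f) := by
  obtain ⟨F₁, hF₁, h₁⟩ := hf
  obtain ⟨F₂, hF₂, h₂⟩ := hM
  obtain ⟨F, hle₁, hle₂, hF, hn⟩ := exists_common_level hNC hF₁ hF₂
  refine ⟨F, hF, fun g g' s s' hs hs' => ?_⟩
  have e1 : g * s * (g' * s') = g * g' * ((g'⁻¹ * s * g') * s') := by group
  have hc : (g'⁻¹ * s * g') * s' ∈ F.fixingSubgroup :=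
    F.fixingSubgroup.mul_mem (conj_mem_fix hn g' hs) hs'
  simp only [dOne, map_mul, Module.End.mul_apply]
  rw [h₁ g' s' (mem_fix_of_le hle₁ hs'), h₂ s (mem_fix_of_le hle₂ hs), e1,
    h₁ (g * g') _ (mem_fix_of_le hle₁ hc), h₁ g s (mem_fix_of_le hle₁ hs)]

/-- `d²` preserves level `S`. -/
lemma isLevS₃_dTwo (hNC : NC S) (hM : Lev S M) {f : GQ × GQ → M}
    (hf : IsLevelConstantS₂ S f) : IsLevS₃ S (dTwo M f) := by
  obtain ⟨F₁, hF₁, h₁⟩ := hf
  obtain ⟨F₂, hF₂, h₂⟩ := hM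
  obtain ⟨F, hle₁, hle₂, hF, hn⟩ := exists_common_level hNC hF₁ hF₂
  refine ⟨F, hF, fun g₁ g₂ g₃ s₁ s₂ s₃ hs₁ hs₂ hs₃ => ?_⟩
  have e1 : g₁ * s₁ * (g₂ * s₂) = g₁ * g₂ * ((g₂⁻¹ * s₁ * g₂) * s₂) := by group
  have hc1 : (g₂⁻¹ * s₁ * g₂) * s₂ ∈ F.fixingSubgroup :=
    F.fixingSubgroup.mul_mem (conj_mem_fix hn g₂ hs₁) hs₂
  have e2 : g₂ * s₂ * (g₃ * s₃) = g₂ * g₃ * ((g₃⁻¹ * s₂ * g₃) * s₃) := by group
  have hc2 : (g₃⁻¹ * s₂ * g₃) * s₃ ∈ F.fixingSubgroup :=
    F.fixingSubgroup.mul_mem (conj_mem_fix hn g₃ hs₂) hs₃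
  have h₁' : ∀ a b t t', t ∈ F.fixingSubgroup → t' ∈ F.fixingSubgroup →
      f (a * t, b * t') = f (a, b) := fun a b t t' ht ht' =>
    h₁ a b t t' (mem_fix_of_le hle₁ ht) (mem_fix_of_le hle₁ ht')
  simp only [dTwo, map_mul, Module.End.mul_apply]
  rw [h₁' g₂ g₃ s₂ s₃ hs₂ hs₃, h₂ s₁ (mem_fix_of_le hle₂ hs₁), e1,
    h₁' (g₁ * g₂) g₃ _ s₃ hc1 hs₃, e2, h₁' g₁ (g₂ * g₃) s₁ _ hs₁ hc2,
    h₁' g₁ g₂ s₁ s₂ hs₁ hs₂]

/-- The twisted dual of a module of level `S` has level `S`. -/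
lemma lev_Md {χ : GQ →* kˣ} (hχ : LevChar S χ) (hM : Lev S M) : Lev S (Md χ M) := by
  obtain ⟨F₁, hF₁, h₁⟩ := hχ
  obtain ⟨F₂, hF₂, h₂⟩ := hM
  refine ⟨F₁ ⊔ F₂, hF₁.sup hF₂, fun s hs φ => ?_⟩
  have hs₁ : s ∈ F₁.fixingSubgroup := mem_fix_of_le le_sup_left hs
  have hs₂ : s⁻¹ ∈ F₂.fixingSubgroup := F₂.fixingSubgroup.inv_mem (mem_fix_of_le le_sup_right hs)
  apply Md_ext
  intro m
  rw [Md_rho_apply, h₁ s hs₁, h₂ s⁻¹ hs₂ m]
  simp

end global

/-! ### Local levels -/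

section localLevel

variable {S : Finset Nat.Primes} (q : Nat.Primes)

lemma levL₁_neg {X : Type} [Neg X] {f : Gl q → X} (hf : IsLevelConstant₁ (rl q) f) :
    IsLevelConstant₁ (rl q) (-f) := hf.comp (fun x => -x)

lemma levL₁_sub {X : Type} [AddGroup X] {f f' : Gl q → X}
    (hf : IsLevelConstant₁ (rl q) f) (hf' : IsLevelConstant₁ (rl q) f') :
    IsLevelConstant₁ (rl q) (f - f') := by
  rw [sub_eq_add_neg]; exact hf.add (levL₁_neg q hf')

lemma levL₂_neg {X : Type} [Neg X] {f : Gl q × Gl q → X} (hf : IsLevelConstant₂ (rl q) f) :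
    IsLevelConstant₂ (rl q) (-f) := hf.comp (fun x => -x)

lemma levL₂_sub {X : Type} [AddGroup X] {f f' : Gl q × Gl q → X}
    (hf : IsLevelConstant₂ (rl q) f) (hf' : IsLevelConstant₂ (rl q) f') :
    IsLevelConstant₂ (rl q) (f - f') := by
  rw [sub_eq_add_neg]; exact hf.add (levL₂_neg q hf')

lemma levL₁_comp {X Y : Type} {f : Gl q → X} (hf : IsLevelConstant₁ (rl q) f)
    (φ : X → Y) : IsLevelConstant₁ (rl q) (fun x => φ (f x)) := hf.comp φ

lemma levL₂_comp {X Y : Type} {f : Gl q × Gl q → X} (hf : IsLevelConstant₂ (rl q) f)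
    (φ : X → Y) : IsLevelConstant₂ (rl q) (fun x => φ (f x)) := hf.comp φ

/-- The restriction of a level-`S` cochain is level constant. -/
lemma levL₁_resOne {X : Type} {f : GQ → X} (hf : IsLevelConstantS₁ S f) :
    IsLevelConstant₁ (rl q) (resOne q f) := by
  obtain ⟨F, hF, h⟩ := hf
  refine ⟨F, hF.1, fun g s hs => ?_⟩
  simp only [resOne, map_mul]
  exact h _ _ hs

/-- The restriction of a level-`S` cochain is level constant. -/
lemma levL₂_resTwo {X : Type} {f : GQ × GQ → X} (hf : IsLevelConstantS₂ S f) :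
    IsLevelConstant₂ (rl q) (resTwo q f) := by
  obtain ⟨F, hF, h⟩ := hf
  refine ⟨F, hF.1, fun g g' s s' hs hs' => ?_⟩
  simp only [resTwo, map_mul]
  exact h _ _ _ _ hs hs'

variable (M : Rep.{0} k GQ)

/-- The local `d⁰ m` is level constant. -/
lemma levL₁_dZeroL (hM : Lev S M) (m : M) : IsLevelConstant₁ (rl q) (dZeroL M q m) :=
  levL₁_resOne q (isLevelConstantS₁_dZero M hM m)

/-- The local `d¹` preserves level constancy. -/
lemma levL₂_dOneL (hM : Lev S M) {f : Gl q → M}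
    (hf : IsLevelConstant₁ (rl q) f) : IsLevelConstant₂ (rl q) (dOneL M q f) := by
  obtain ⟨F₁, hF₁, h₁⟩ := hf
  obtain ⟨F₂, hF₂, h₂⟩ := hM
  haveI := hF₁
  haveI := hF₂.1
  obtain ⟨F, hle, hF, hn⟩ := ncfin (F₁ ⊔ F₂) (IntermediateField.finiteDimensional_sup F₁ F₂)
  have hle₁ : F₁ ≤ F := le_sup_left.trans hle
  have hle₂ : F₂ ≤ F := le_sup_right.trans hle
  refine ⟨F, hF, fun g g' s s' hs hs' => ?_⟩
  have e1 : g * s * (g' * s') = g * g' * ((g'⁻¹ * s * g') * s') := by group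
  have hc : rl q ((g'⁻¹ * s * g') * s') ∈ F.fixingSubgroup := by
    rw [map_mul, map_mul, map_mul, map_inv]
    exact F.fixingSubgroup.mul_mem (conj_mem_fix hn (rl q g') hs) hs'
  simp only [dOneL, map_mul, Module.End.mul_apply]
  rw [h₁ g' s' (mem_fix_of_le hle₁ hs'), h₂ _ (mem_fix_of_le hle₂ hs), e1,
    h₁ (g * g') _ (mem_fix_of_le hle₁ hc), h₁ g s (mem_fix_of_le hle₁ hs)]

end localLevel

end Fermat.Agent.S55

end
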