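/-
S55 (Poitou–Tate), toolkit: cone differential, push-forward of cone cochains, the Leibniz
rule for the cup products with cone on the left, naturality of the cup products.
Owner: helper49.
-/
import Fermat.Agent.S55.Coh.Level

set_option autoImplicit false

open CategoryTheory Module groupCohomology ExtCitation

noncomputable section

namespace Fermat.Agent.S55

variable {k : Type} [Field k] (S : Finset Nat.Primes)

/-! ### The dual map as a morphism of representations -/

section dHom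

variable (χ : GQ →* kˣ) {A B : Rep.{0} k GQ}

/-- The dual map `B' ⟶ A'` of a morphism `u : A ⟶ B`, as a morphism of representations. -/
def dHom (u : A ⟶ B) : Md χ B ⟶ Md χ A :=
  Rep.ofHom ⟨dMap χ u, fun g => LinearMap.ext fun φ => dMap_rho χ u g φ⟩

lemma dHom_hom_apply (u : A ⟶ B) (φ : Md χ B) : (dHom χ u).hom φ = dMap χ u φ := rfl

end dHom

/-! ### Cone differentials and push-forward -/

section coneDiff

variable (M : Rep.{0} k GQ)

/-- The cone differential `C¹_c → C²_c`: `d (f, m) = (d f, res f - d m)`. -/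
def dCone1 (y : C1c S M) : C2c S M :=
  (dOne M y.1, fun q => resOne q.1 y.1 - dZeroL M q.1 (y.2 q))

/-- The cone differential `C²_c → C³_c`: `d (f, g) = (d f, res f - d g)`. -/
def dCone2 (x : C2c S M) : C3c S M :=
  (dTwo M x.1, fun q => resTwo q.1 x.1 - dOneL M q.1 (x.2 q))

variable {S M}

lemma dCone2_add (x x' : C2c S M) : dCone2 S M (x + x') = dCone2 S M x + dCone2 S M x' := by
  refine Prod.ext (dTwo_add M _ _) (funext fun q => ?_)
  simp only [dCone2, Prod.snd_add, Prod.fst_add, Pi.add_apply, resTwo_add, dOneL_add]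
  abel

lemma dCone2_sub (x x' : C2c S M) : dCone2 S M (x - x') = dCone2 S M x - dCone2 S M x' := by
  refine Prod.ext (dTwo_sub M _ _) (funext fun q => ?_)
  simp only [dCone2, Prod.snd_sub, Prod.fst_sub, Pi.sub_apply, resTwo_sub, dOneL_sub]
  abel

lemma dCone1_add (y y' : C1c S M) : dCone1 S M (y + y') = dCone1 S M y + dCone1 S M y' := by
  refine Prod.ext (dOne_add M _ _) (funext fun q => ?_)
  simp only [dCone1, Prod.snd_add, Prod.fst_add, Pi.add_apply, resOne_add, dZeroL_add]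
  abel

lemma dCone1_sub (y y' : C1c S M) : dCone1 S M (y - y') = dCone1 S M y - dCone1 S M y' := by
  refine Prod.ext (dOne_sub M _ _) (funext fun q => ?_)
  simp only [dCone1, Prod.snd_sub, Prod.fst_sub, Pi.sub_apply, resOne_sub, dZeroL_sub]
  abel

/-- A cone 2-cochain with level components is a cocycle iff its cone differential vanishes. -/
lemma isZ2c_iff (x : C2c S M) :
    IsZ2c S M x ↔ (IsLevelConstantS₂ S x.1 ∧ ∀ q : ↥S, IsLevelConstant₁ (rl q.1) (x.2 q)) ∧
      dCone2 S M x = 0 := by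
  constructor
  · rintro ⟨⟨hd, hl⟩, h⟩
    refine ⟨⟨hl, fun q => (h q).1⟩, Prod.ext hd (funext fun q => ?_)⟩
    simp only [dCone2, (h q).2, sub_self, Prod.snd_zero, Pi.zero_apply]
  · rintro ⟨⟨hl, hl'⟩, h⟩
    have h1 : dTwo M x.1 = 0 := congrArg Prod.fst h
    have h2 : ∀ q : ↥S, resTwo q.1 x.1 - dOneL M q.1 (x.2 q) = 0 := fun q =>
      congrFun (congrArg Prod.snd h) q
    exact ⟨⟨h1, hl⟩, fun q => ⟨hl' q, sub_eq_zero.1 (h2 q)⟩⟩

/-- A cone 1-cochain with level global component is a cocycle iff its cone differential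
vanishes. -/
lemma isZ1c_iff (y : C1c S M) :
    IsZ1c S M y ↔ IsLevelConstantS₁ S y.1 ∧ dCone1 S M y = 0 := by
  constructor
  · rintro ⟨⟨hd, hl⟩, h⟩
    refine ⟨hl, Prod.ext hd (funext fun q => ?_)⟩
    simp only [dCone1, h q, sub_self, Prod.snd_zero, Pi.zero_apply]
  · rintro ⟨hl, h⟩
    have h1 : dOne M y.1 = 0 := congrArg Prod.fst h
    have h2 : ∀ q : ↥S, resOne q.1 y.1 - dZeroL M q.1 (y.2 q) = 0 := fun q =>
      congrFun (congrArg Prod.snd h) q
    exact ⟨⟨h1, hl⟩, fun q => sub_eq_zero.1 (h2 q)⟩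

/-- The cone differential of a level cone 2-cochain is a cone 3-coboundary. -/
lemma isB3c_dCone2 {x : C2c S M} (hl : IsLevelConstantS₂ S x.1)
    (hl' : ∀ q : ↥S, IsLevelConstant₁ (rl q.1) (x.2 q)) : IsB3c S M (dCone2 S M x) :=
  ⟨x.1, x.2, hl, hl', rfl, fun _ => rfl⟩

lemma isB3c_iff (z : C3c S M) :
    IsB3c S M z ↔ ∃ x : C2c S M, IsLevelConstantS₂ S x.1 ∧
      (∀ q : ↥S, IsLevelConstant₁ (rl q.1) (x.2 q)) ∧ z = dCone2 S M x := by
  constructor
  · rintro ⟨f, g, hf, hg, h1, h2⟩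
    exact ⟨(f, g), hf, hg, Prod.ext h1 (funext h2)⟩
  · rintro ⟨x, hl, hl', rfl⟩
    exact isB3c_dCone2 hl hl'

lemma isB2c_iff (z : C2c S M) :
    IsB2c S M z ↔ ∃ y : C1c S M, IsLevelConstantS₁ S y.1 ∧ z = dCone1 S M y := by
  constructor
  · rintro ⟨f, m, hf, h1, h2⟩
    exact ⟨(f, m), hf, Prod.ext h1 (funext h2)⟩
  · rintro ⟨y, hl, rfl⟩
    exact ⟨y.1, y.2, hl, rfl, fun _ => rfl⟩

end coneDiff

section push

variable {S} {A B : Rep.{0} k GQ}

/-- Push-forward of cone 1-cochains along a map of the coefficients. -/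
def mapC1 (u : A → B) (y : C1c S A) : C1c S B := (fun g => u (y.1 g), fun q => u (y.2 q))

/-- Push-forward of cone 2-cochains along a map of the coefficients. -/
def mapC2 (u : A → B) (x : C2c S A) : C2c S B := (fun t => u (x.1 t), fun q h => u (x.2 q h))

/-- Push-forward of cone 3-cochains along a map of the coefficients. -/
def mapC3 (u : A → B) (x : C3c S A) : C3c S B := (fun t => u (x.1 t), fun q h => u (x.2 q h))

lemma dCone2_mapC2 (u : A ⟶ B) (x : C2c S A) :
    dCone2 S B (mapC2 u.hom x) = mapC3 u.hom (dCone2 S A x) := by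
  refine Prod.ext (dTwo_comp u x.1) (funext fun q => funext fun t => ?_)
  have := congrFun (dOneL_comp u q.1 (x.2 q)) t
  simp only [dCone2, mapC2, mapC3, Pi.sub_apply, resTwo, map_sub] at this ⊢
  rw [this]

lemma dCone1_mapC1 (u : A ⟶ B) (y : C1c S A) :
    dCone1 S B (mapC1 u.hom y) = mapC2 u.hom (dCone1 S A y) := by
  refine Prod.ext (dOne_comp u y.1) (funext fun q => funext fun t => ?_)
  have := congrFun (dZeroL_comp u q.1 (y.2 q)) t
  simp only [dCone1, mapC1, mapC2, Pi.sub_apply, resOne, map_sub] at this ⊢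
  rw [this]

lemma mapC2_add (u : A →ₗ[k] B) (x x' : C2c S A) :
    mapC2 u (x + x') = mapC2 u x + mapC2 u x' := by
  refine Prod.ext (funext fun t => ?_) (funext fun q => funext fun t => ?_) <;>
    simp [mapC2]

lemma mapC2_sub (u : A →ₗ[k] B) (x x' : C2c S A) :
    mapC2 u (x - x') = mapC2 u x - mapC2 u x' := by
  refine Prod.ext (funext fun t => ?_) (funext fun q => funext fun t => ?_) <;>
    simp [mapC2]

end push

/-! ### Cup products with cone on the left: linearity, naturality, Leibniz -/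

section cupLeft

variable {S} (χ : GQ →* kˣ) (M : Rep.{0} k GQ)

/-- Cone on the left, degrees `(2, 0)`: `(f, g) ∪ m' = (f ∪ m', g ∪ m')`, a cone 2-cochain of
`k(χ)`. -/
def cupA20 (x : C2c S M) (m' : Md χ M) : C2c S (kχ χ) :=
  (fun t => ev χ M (x.1 t) ((Md χ M).ρ (t.1 * t.2) m'),
   fun q h => ev χ M (x.2 q h) ((Md χ M).ρ (rl q.1 h) m'))

/-- `ev_rho` in simp-normal form. -/
lemma ev_rho' (g : GQ) (m : M) (φ : Md χ M) :
    ev χ M (M.ρ g m) ((M.ρ.dual.twist χ) g φ) = (χ g : k) * ev χ M m φ :=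
  ev_rho χ M g m φ

/-- `kχ_rho` in simp-normal form. -/
lemma kχ_rho' (g : GQ) (c : k) :
    ((Representation.trivial k GQ k).twist χ) g c = (χ g : k) * c := rfl

/-- **Leibniz rule**, degrees `(2, 0)`:
`d_cone (x ∪ m') = (d_cone x) ∪ m' + x ∪ d m'`. -/
lemma dCone2_cupA20 (x : C2c S M) (m' : Md χ M) :
    dCone2 S (kχ χ) (cupA20 χ M x m') =
      cupA3 S χ M (dCone2 S M x) m' + cupA2 S χ M x (dZero (Md χ M) m') := by
  refine Prod.ext (funext fun t => ?_) (funext fun q => funext fun t => ?_)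
  · obtain ⟨g₁, g₂, g₃⟩ := t
    simp only [dCone2, cupA20, cupA3, cupA2, dTwo, dZero, Prod.fst_add, Pi.add_apply,
      ev_sub_left, ev_add_left, map_sub, map_mul, Module.End.mul_apply,
      ev_rho', kχ_rho']
    erw [ev_sub_right]
    ring
  · obtain ⟨h₁, h₂⟩ := t
    simp only [dCone2, cupA20, cupA3, cupA2, dOneL, dZero, resTwo, Prod.snd_add, Pi.add_apply,
      Pi.sub_apply, ev_sub_left, ev_add_left, map_sub, map_mul,
      Module.End.mul_apply, ev_rho', kχ_rho']
    erw [ev_sub_right]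
    ring

variable {M}

lemma cupA2_add_left (x x' : C2c S M) (b : GQ → Md χ M) :
    cupA2 S χ M (x + x') b = cupA2 S χ M x b + cupA2 S χ M x' b := by
  refine Prod.ext (funext fun t => ?_) (funext fun q => funext fun t => ?_) <;>
    simp [cupA2, ev_add_left]

lemma cupA2_sub_left (x x' : C2c S M) (b : GQ → Md χ M) :
    cupA2 S χ M (x - x') b = cupA2 S χ M x b - cupA2 S χ M x' b := by
  refine Prod.ext (funext fun t => ?_) (funext fun q => funext fun t => ?_) <;>
    simp [cupA2, ev_sub_left]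

lemma cupA3_zero_left (m' : Md χ M) : cupA3 S χ M (0 : C3c S M) m' = 0 := by
  refine Prod.ext (funext fun t => ?_) (funext fun q => funext fun t => ?_) <;>
    simp [cupA3]

variable (S M) in
/-- `b ↦ x ∪ b` as a linear map. -/
def cupA2ₗ (x : C2c S M) : (GQ → Md χ M) →ₗ[k] C3c S (kχ χ) where
  toFun b := cupA2 S χ M x b
  map_add' b b' := by
    refine Prod.ext (funext fun t => ?_) (funext fun q => funext fun t => ?_)
    · simp only [cupA2, Pi.add_apply, map_add, Prod.fst_add]; rfl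
    · simp only [cupA2, Pi.add_apply, map_add, Prod.snd_add]; rfl
  map_smul' c b := by
    refine Prod.ext (funext fun t => ?_) (funext fun q => funext fun t => ?_)
    · simp only [cupA2, Pi.smul_apply, map_smul, Prod.smul_fst, RingHom.id_apply]; rfl
    · simp only [cupA2, Pi.smul_apply, map_smul, Prod.smul_snd, RingHom.id_apply]; rfl

@[simp] lemma cupA2ₗ_apply (x : C2c S M) (b : GQ → Md χ M) :
    cupA2ₗ S χ M x b = cupA2 S χ M x b := rfl

variable {A B : Rep.{0} k GQ}

/-- Naturality of `cupA2`. -/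
lemma cupA2_mapC2 (u : A ⟶ B) (x : C2c S A) (b : GQ → Md χ B) :
    cupA2 S χ B (mapC2 u.hom x) b = cupA2 S χ A x (fun g => dMap χ u (b g)) := by
  refine Prod.ext (funext fun t => ?_) (funext fun q => funext fun t => ?_)
  · simp only [cupA2, mapC2, ← ev_dMap]
    exact congrArg _ (dMap_rho χ u _ _)
  · simp only [cupA2, mapC2, ← ev_dMap]
    exact congrArg _ (dMap_rho χ u _ _)

/-- Naturality of `cupA3`. -/
lemma cupA3_mapC3 (u : A ⟶ B) (x : C3c S A) (m' : Md χ B) :
    cupA3 S χ B (mapC3 u.hom x) m' = cupA3 S χ A x (dMap χ u m') := by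
  refine Prod.ext (funext fun t => ?_) (funext fun q => funext fun t => ?_)
  · simp only [cupA3, mapC3, ← ev_dMap]
    exact congrArg _ (dMap_rho χ u _ _)
  · simp only [cupA3, mapC3, ← ev_dMap]
    exact congrArg _ (dMap_rho χ u _ _)

end cupLeft

/-! ### Levels of cup products -/

section cupLevel

variable {S}

lemma levS₂_pair {X Y : Type} {f : GQ × GQ → X} {f' : GQ × GQ → Y}
    (hf : IsLevelConstantS₂ S f) (hf' : IsLevelConstantS₂ S f') :
    IsLevelConstantS₂ S (fun t => (f t, f' t)) := by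
  obtain ⟨F, hF, h⟩ := hf
  obtain ⟨F', hF', h'⟩ := hf'
  refine ⟨F ⊔ F', hF.sup hF', fun g g' s s' hs hs' => ?_⟩
  show (f _, f' _) = (f _, f' _)
  rw [h g g' s s' (mem_fix_of_le le_sup_left hs) (mem_fix_of_le le_sup_left hs'),
    h' g g' s s' (mem_fix_of_le le_sup_right hs) (mem_fix_of_le le_sup_right hs')]

lemma levS₁_pair {X Y : Type} {f : GQ → X} {f' : GQ → Y}
    (hf : IsLevelConstantS₁ S f) (hf' : IsLevelConstantS₁ S f') :
    IsLevelConstantS₁ S (fun t => (f t, f' t)) := by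
  obtain ⟨F, hF, h⟩ := hf
  obtain ⟨F', hF', h'⟩ := hf'
  refine ⟨F ⊔ F', hF.sup hF', fun g s hs => ?_⟩
  show (f _, f' _) = (f _, f' _)
  rw [h g s (mem_fix_of_le le_sup_left hs), h' g s (mem_fix_of_le le_sup_right hs)]

lemma levL₁_pair (q : Nat.Primes) {X Y : Type} {f : Gl q → X} {f' : Gl q → Y}
    (hf : IsLevelConstant₁ (rl q) f) (hf' : IsLevelConstant₁ (rl q) f') :
    IsLevelConstant₁ (rl q) (fun t => (f t, f' t)) := by
  obtain ⟨F, hF, h⟩ := hf
  obtain ⟨F', hF', h'⟩ := hf'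
  haveI := hF
  haveI := hF'
  refine ⟨F ⊔ F', IntermediateField.finiteDimensional_sup F F', fun g s hs => ?_⟩
  show (f _, f' _) = (f _, f' _)
  rw [h g s (mem_fix_of_le le_sup_left hs), h' g s (mem_fix_of_le le_sup_right hs)]

lemma levL₂_pair (q : Nat.Primes) {X Y : Type} {f : Gl q × Gl q → X} {f' : Gl q × Gl q → Y}
    (hf : IsLevelConstant₂ (rl q) f) (hf' : IsLevelConstant₂ (rl q) f') :
    IsLevelConstant₂ (rl q) (fun t => (f t, f' t)) := by
  obtain ⟨F, hF, h⟩ := hf
  obtain ⟨F', hF', h'⟩ := hf'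
  haveI := hF
  haveI := hF'
  refine ⟨F ⊔ F', IntermediateField.finiteDimensional_sup F F', fun g g' s s' hs hs' => ?_⟩
  show (f _, f' _) = (f _, f' _)
  rw [h g g' s s' (mem_fix_of_le le_sup_left hs) (mem_fix_of_le le_sup_left hs'),
    h' g g' s s' (mem_fix_of_le le_sup_right hs) (mem_fix_of_le le_sup_right hs')]

variable (N : Rep.{0} k GQ)

/-- `g ↦ g • n` is of level `S`. -/
lemma levS₁_rho (hN : Lev S N) (n : N) : IsLevelConstantS₁ S (fun g : GQ => N.ρ g n) := by
  obtain ⟨F, hF, h⟩ := hN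
  refine ⟨F, hF, fun g s hs => ?_⟩
  simp only [map_mul, Module.End.mul_apply, h s hs n]

/-- `(g₁, g₂) ↦ (g₁ g₂) • n` is of level `S`. -/
lemma levS₂_rho_mul (hNC : NC S) (hN : Lev S N) (n : N) :
    IsLevelConstantS₂ S (fun t : GQ × GQ => N.ρ (t.1 * t.2) n) := by
  obtain ⟨F₀, hF₀, h⟩ := hN
  obtain ⟨F, hle, hF, hn⟩ := hNC F₀ hF₀
  refine ⟨F, hF, fun g g' s s' hs hs' => ?_⟩
  have e1 : g * s * (g' * s') = g * g' * ((g'⁻¹ * s * g') * s') := by group
  have hc : (g'⁻¹ * s * g') * s' ∈ F.fixingSubgroup :=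
    F.fixingSubgroup.mul_mem (conj_mem_fix hn g' hs) hs'
  show N.ρ (g * s * (g' * s')) n = N.ρ (g * g') n
  rw [e1, map_mul, Module.End.mul_apply, h _ (mem_fix_of_le hle hc) n]

/-- `h ↦ r(h) • n` is level constant on the local group. -/
lemma levL₁_rho (q : Nat.Primes) (hN : Lev S N) (n : N) :
    IsLevelConstant₁ (rl q) (fun h : Gl q => N.ρ (rl q h) n) :=
  levL₁_resOne q (levS₁_rho N hN n)

/-- `(h₁, h₂) ↦ r(h₁ h₂) • n` is level constant on the local group. -/
lemma levL₂_rho_mul (q : Nat.Primes) (hNC : NC S) (hN : Lev S N) (n : N) :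
    IsLevelConstant₂ (rl q) (fun t : Gl q × Gl q => N.ρ (rl q (t.1 * t.2)) n) := by
  have h := levL₂_resTwo q (levS₂_rho_mul N hNC hN n)
  have e : (fun t : Gl q × Gl q => N.ρ (rl q (t.1 * t.2)) n) =
      resTwo q (fun t : GQ × GQ => N.ρ (t.1 * t.2) n) := by
    funext t
    simp only [resTwo, map_mul]
  rw [e]
  exact h

variable (χ : GQ →* kˣ) (M : Rep.{0} k GQ)

/-- The components of `x ∪ m'` are level constant. -/
lemma lev_cupA20 (hNC : NC S) (hχ : LevChar S χ) (hM : Lev S M) {x : C2c S M}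
    (hl : IsLevelConstantS₂ S x.1) (hl' : ∀ q : ↥S, IsLevelConstant₁ (rl q.1) (x.2 q))
    (m' : Md χ M) :
    IsLevelConstantS₂ S (cupA20 χ M x m').1 ∧
      ∀ q : ↥S, IsLevelConstant₁ (rl q.1) ((cupA20 χ M x m').2 q) := by
  have hM' : Lev S (Md χ M) := lev_Md M hχ hM
  refine ⟨?_, fun q => ?_⟩
  · exact levS₂_comp (levS₂_pair hl (levS₂_rho_mul (Md χ M) hNC hM' m'))
      (fun p => ev χ M p.1 p.2)
  · exact levL₁_comp q.1 (levL₁_pair q.1 (hl' q) (levL₁_rho (Md χ M) q.1 hM' m'))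
      (fun p => ev χ M p.1 p.2)

end cupLevel

end Fermat.Agent.S55

end
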