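/-
S55 (Poitou–Tate), toolkit: cup products with cone on the right (`cupB1`, `cupB2`):
linearity, naturality, the Leibniz rule in degrees `(1, 1)`, levels.
Owner: helper49.
-/
import Fermat.Agent.S55.Coh.Cone

set_option autoImplicit false

open CategoryTheory Module groupCohomology ExtCitation

noncomputable section

namespace Fermat.Agent.S55

variable {k : Type} [Field k] {S : Finset Nat.Primes}

section cupRight

variable (χ : GQ →* kˣ) (M : Rep.{0} k GQ)

/-- Cone on the right, degrees `(1, 1)`: `a ∪ (f', m') = (a ∪ f', - res a ∪ m')`, a cone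
2-cochain of `k(χ)`. -/
def cupB11 (a : GQ → M) (y : C1c S (Md χ M)) : C2c S (kχ χ) :=
  (fun t => ev χ M (a t.1) ((Md χ M).ρ t.1 (y.1 t.2)),
   fun q h => - ev χ M (a (rl q.1 h)) ((Md χ M).ρ (rl q.1 h) (y.2 q)))

/-- **Leibniz rule**, degrees `(1, 1)`, cone on the right:
`d_cone (a ∪ y) = (d a) ∪ y - a ∪ (d_cone y)`. -/
lemma dCone2_cupB11 (a : GQ → M) (y : C1c S (Md χ M)) :
    dCone2 S (kχ χ) (cupB11 χ M a y) =
      cupB1 S χ M (dOne M a) y - cupB2 S χ M a (dCone1 S (Md χ M) y) := by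
  refine Prod.ext (funext fun t => ?_) (funext fun q => funext fun t => ?_)
  · obtain ⟨g₁, g₂, g₃⟩ := t
    simp only [dCone2, dCone1, cupB11, cupB1, cupB2, dTwo, dOne, Prod.fst_sub, Pi.sub_apply,
      ev_sub_left, ev_add_left, map_sub, map_add, map_mul, Module.End.mul_apply,
      ev_rho', kχ_rho']
    erw [ev_add_right, ev_sub_right]
    ring
  · obtain ⟨h₁, h₂⟩ := t
    simp only [dCone2, dCone1, cupB11, cupB1, cupB2, dOneL, dOne, dZeroL, resTwo, resOne,
      Prod.snd_sub, Pi.sub_apply, ev_sub_left, ev_add_left, map_sub, map_add, map_mul, map_neg,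
      Module.End.mul_apply, ev_rho', kχ_rho']
    erw [ev_sub_right, ev_sub_right]
    ring

variable {M}

lemma cupB1_add_right (a : GQ × GQ → M) (y y' : C1c S (Md χ M)) :
    cupB1 S χ M a (y + y') = cupB1 S χ M a y + cupB1 S χ M a y' := by
  refine Prod.ext (funext fun t => ?_) (funext fun q => funext fun t => ?_)
  · simp only [cupB1, Prod.fst_add, Pi.add_apply, map_add]; rfl
  · simp only [cupB1, Prod.snd_add, Pi.add_apply, map_add]; rfl

lemma cupB2_zero_right (a : GQ → M) : cupB2 S χ M a (0 : C2c S (Md χ M)) = 0 := by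
  refine Prod.ext (funext fun t => ?_) (funext fun q => funext fun t => ?_)
  · simp only [cupB2, Prod.fst_zero, Pi.zero_apply, map_zero]; rfl
  · simp only [cupB2, Prod.snd_zero, Pi.zero_apply, map_zero]
    show -ev χ M _ 0 = 0
    rw [ev_zero_right, neg_zero]

variable (S M) in
/-- `a ↦ a ∪ y` as a linear map. -/
def cupB1ₗ (y : C1c S (Md χ M)) : (GQ × GQ → M) →ₗ[k] C3c S (kχ χ) where
  toFun a := cupB1 S χ M a y
  map_add' a a' := by
    refine Prod.ext (funext fun t => ?_) (funext fun q => funext fun t => ?_) <;>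
      simp [cupB1, ev_add_left]
  map_smul' c a := by
    refine Prod.ext (funext fun t => ?_) (funext fun q => funext fun t => ?_) <;>
      simp [cupB1, ev_smul_left]

@[simp] lemma cupB1ₗ_apply (y : C1c S (Md χ M)) (a : GQ × GQ → M) :
    cupB1ₗ S χ M y a = cupB1 S χ M a y := rfl

variable {A B : Rep.{0} k GQ}

/-- Naturality of `cupB1`. -/
lemma cupB1_comp (u : A ⟶ B) (a : GQ × GQ → A) (y : C1c S (Md χ B)) :
    cupB1 S χ B (fun t => u.hom (a t)) y = cupB1 S χ A a (mapC1 (dMap χ u) y) := by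
  refine Prod.ext (funext fun t => ?_) (funext fun q => funext fun t => ?_)
  · simp only [cupB1, mapC1, ← ev_dMap]
    exact congrArg _ (dMap_rho χ u _ _)
  · simp only [cupB1, mapC1, ← ev_dMap]
    exact congrArg _ (dMap_rho χ u _ _)

/-- Naturality of `cupB2`. -/
lemma cupB2_comp (u : A ⟶ B) (a : GQ → A) (y : C2c S (Md χ B)) :
    cupB2 S χ B (fun t => u.hom (a t)) y = cupB2 S χ A a (mapC2 (dMap χ u) y) := by
  refine Prod.ext (funext fun t => ?_) (funext fun q => funext fun t => ?_)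
  · simp only [cupB2, mapC2, ← ev_dMap]
    exact congrArg _ (dMap_rho χ u _ _)
  · simp only [cupB2, mapC2, ← ev_dMap]
    exact congrArg _ (congrArg _ (dMap_rho χ u _ _))

end cupRight

section levelRight

variable (χ : GQ →* kˣ) (M : Rep.{0} k GQ)

/-- `(g₁, g₂) ↦ g₁ • f (g₂)` is of level `S` if `f` is. -/
lemma levS₂_rho_fst (hNC : NC S) (N : Rep.{0} k GQ) (hN : Lev S N) {f : GQ → N}
    (hf : IsLevelConstantS₁ S f) :
    IsLevelConstantS₂ S (fun t : GQ × GQ => N.ρ t.1 (f t.2)) := by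
  obtain ⟨F₁, hF₁, h₁⟩ := hf
  obtain ⟨F₂, hF₂, h₂⟩ := hN
  obtain ⟨F, hle₁, hle₂, hF, hn⟩ := exists_common_level hNC hF₁ hF₂
  refine ⟨F, hF, fun g g' s s' hs hs' => ?_⟩
  show N.ρ (g * s) (f (g' * s')) = N.ρ g (f g')
  rw [h₁ g' s' (mem_fix_of_le hle₁ hs'), map_mul, Module.End.mul_apply,
    h₂ s (mem_fix_of_le hle₂ hs)]

/-- The components of `a ∪ y` (cone on the right, degrees `(1,1)`) are level constant. -/
lemma lev_cupB11 (hNC : NC S) (hχ : LevChar S χ) (hM : Lev S M) {a : GQ → M}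
    (ha : IsLevelConstantS₁ S a) {y : C1c S (Md χ M)} (hy : IsLevelConstantS₁ S y.1) :
    IsLevelConstantS₂ S (cupB11 χ M a y).1 ∧
      ∀ q : ↥S, IsLevelConstant₁ (rl q.1) ((cupB11 χ M a y).2 q) := by
  have hM' : Lev S (Md χ M) := lev_Md M hχ hM
  refine ⟨?_, fun q => ?_⟩
  · have h1 : IsLevelConstantS₂ S (fun t : GQ × GQ => a t.1) := by
      obtain ⟨F, hF, h⟩ := ha
      exact ⟨F, hF, fun g g' s s' hs _ => h g s hs⟩
    exact levS₂_comp (levS₂_pair h1 (levS₂_rho_fst hNC (Md χ M) hM' hy))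
      (fun p => ev χ M p.1 p.2)
  · exact levL₁_comp q.1 (levL₁_pair q.1 (levL₁_resOne q.1 ha)
      (levL₁_rho (Md χ M) q.1 hM' (y.2 q))) (fun p => - ev χ M p.1 p.2)

end levelRight

end Fermat.Agent.S55

end
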