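/-
S55 (Poitou–Tate), level 1 wiring: E1α, E1β, E2, E3, E4, E5 + bridges ⟹ the frozen statement.
Owner: helper49.  Plan: NOTES/plan/S55.md.
-/
import Fermat.Agent.S55.Coh.Stmts

set_option autoImplicit false

open CategoryTheory Module groupCohomology ExtCitation

namespace Fermat.Agent.S55

section zero

variable {k : Type} [Field k] {S : Finset Nat.Primes} {χ : GQ →* kˣ}

lemma isLevelConstantS₂_zero (S : Finset Nat.Primes) {X : Type} [Zero X] :
    IsLevelConstantS₂ S (0 : GQ × GQ → X) :=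
  isLevelConstantS₂_const S (0 : X)

lemma isLevelConstantS₁_zero (S : Finset Nat.Primes) {X : Type} [Zero X] :
    IsLevelConstantS₁ S (0 : GQ → X) :=
  isLevelConstantS₁_const S (0 : X)

lemma isZ2c_zero (M : Rep.{0} k GQ) : IsZ2c S M (0 : C2c S M) := by
  refine ⟨⟨?_, isLevelConstantS₂_zero S⟩, fun q => ⟨isLevelConstant₁_const (rl q.1) (0 : M), ?_⟩⟩
  · funext x; simp [dTwo]
  · funext x; simp [resTwo, dOneL]

lemma isZ1c_zero (M : Rep.{0} k GQ) : IsZ1c S M (0 : C1c S M) := by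
  refine ⟨⟨?_, isLevelConstantS₁_zero S⟩, fun q => ?_⟩
  · funext x; simp [dOne]
  · funext x; simp [resOne, dZeroL]

/-- `α²epi` for the zero module. -/
lemma alphaTwoEpi_of_subsingleton (tr : Trace S χ) (M : Rep.{0} k GQ) [Subsingleton M] :
    AlphaTwoEpi tr M := by
  intro φ _
  refine ⟨0, isZ2c_zero M, fun b _ => ?_⟩
  have hM : ∀ m' : Md χ M, m' = 0 := fun m' => by
    apply LinearMap.ext
    intro m
    rw [Subsingleton.elim m 0]
    simp
  have hb : b = 0 := funext fun g => hM (b g)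
  have hc : cupA2 S χ M (0 : C2c S M) b = 0 := by
    subst hb
    refine Prod.ext (funext fun t => ?_) (funext fun q => funext fun t => ?_)
    · simp [cupA2, ev]
    · simp [cupA2, ev]
  rw [hc, hb, map_zero, map_zero]

/-- `β¹epi` for the zero module. -/
lemma betaOneEpi_of_subsingleton (tr : Trace S χ) (M : Rep.{0} k GQ) [Subsingleton M] :
    BetaOneEpi tr M := by
  intro φ _
  refine ⟨0, isZ1c_zero (Md χ M), fun a _ => ?_⟩
  have ha : a = 0 := funext fun g => Subsingleton.elim _ _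
  have hc : cupB1 S χ M a (0 : C1c S (Md χ M)) = 0 := by
    subst ha
    refine Prod.ext (funext fun t => ?_) (funext fun q => funext fun t => ?_)
    · simp [cupB1, ev]
    · simp [cupB1, ev]
  rw [hc, ha, map_zero, map_zero]

end zero

lemma isRetract_of_iso {k : Type} [Field k] {M N : Rep.{0} k GQ} (e : M ≅ N) : IsRetract M N :=
  ⟨e.hom, e.inv, fun m => by simp⟩

/-- Dévissage, cone on the left. -/
theorem alphaTwoEpi_of_devL (h1a : Stmt_E1A) (h2 : Stmt_E2)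
    {k : Type} [Field k] {S : Finset Nat.Primes} {χ : GQ →* kˣ} (tr : Trace S χ)
    (hχ : LevChar S χ) (K : IntermediateField ℚ (AlgebraicClosure ℚ))
    (hK : AlphaTwoEpi tr (permRep k K) ∧ AlphaThreeMono tr (permRep k K))
    (N : Rep.{0} k GQ) (hN : DevL k S K N) : AlphaTwoEpi tr N := by
  induction hN with
  | zero M hM => exact alphaTwoEpi_of_subsingleton tr M
  | ext M₁ M M₂ i π hses hiso h₁ h h₂ _ ih =>
    obtain ⟨e⟩ := hiso
    have hr := h2 k S χ tr M₁ (permRep k K) (isRetract_of_iso e)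
    exact h1a k S χ tr hχ M₁ M M₂ i π hses h₁ h h₂ (hr.1 hK.1) (hr.2.1 hK.2) ih

/-- Dévissage, cone on the right. -/
theorem betaOneEpi_of_devR (h1b : Stmt_E1B) (h2 : Stmt_E2)
    {k : Type} [Field k] {S : Finset Nat.Primes} {χ : GQ →* kˣ} (tr : Trace S χ)
    (hχ : LevChar S χ) (K : IntermediateField ℚ (AlgebraicClosure ℚ))
    (hK : BetaOneEpi tr (permRep k K) ∧ BetaTwoMono tr (permRep k K))
    (N : Rep.{0} k GQ) (hN : DevR k S K N) : BetaOneEpi tr N := by
  induction hN with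
  | zero M hM => exact betaOneEpi_of_subsingleton tr M
  | ext M₁ M M₂ i π hses hiso h₁ h h₂ _ ih =>
    obtain ⟨e⟩ := hiso
    have hr := h2 k S χ tr M₂ (permRep k K) (isRetract_of_iso e)
    exact h1b k S χ tr hχ M₁ M M₂ i π hses h₁ h h₂ ih (hr.2.2.1 hK.1) (hr.2.2.2 hK.2)

set_option maxHeartbeats 2000000 in
/-- **Level-1 wiring**: the packages E1–E5 and the two bridges give the frozen statement S55. -/
theorem result_of_E (h1a : Stmt_E1A) (h1b : Stmt_E1B) (h2 : Stmt_E2) (h3 : Stmt_E3)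
    (h4 : Stmt_E4) (h5 : Stmt_E5) (hl : Stmt_lev) (hc : Stmt_levChar)
    {p : ℕ} [Fact p.Prime] (hp2 : p ≠ 2) (S : Finset Nat.Primes) (hpS : pPrime p ∈ S)
    (M : Rep.{0} (ZMod p) (AlgebraicClosure ℚ ≃ₐ[ℚ] AlgebraicClosure ℚ))
    [FiniteDimensional (ZMod p) M]
    (hsm : ∀ m : M, ∃ F : IntermediateField ℚ (AlgebraicClosure ℚ), FiniteDimensional ℚ F ∧
      ∀ s ∈ F.fixingSubgroup, M.ρ s m = m)
    (hMur : ∀ q : Nat.Primes, q ∉ S → ∀ A : ValuationSubring (AlgebraicClosure ℚ),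
      A.LiesOverPrime (q : ℕ) → ∀ g ∈ A.inertiaSubgroupIn ℚ, M.ρ g = 1) :
    ∃ B : sha₁ S (M.dualTwist (cycloChar p)) →ₗ[ZMod p] sha₂ S M →ₗ[ZMod p] ZMod p,
      (∀ y, (∀ x, B y x = 0) → y = 0) ∧ (∀ x, (∀ y, B y x = 0) → x = 0) := by
  have hyp : Hyp p S M := ⟨hp2, hpS, inferInstance, hsm, hMur⟩
  have hlev : Lev S M := hl p S M hyp
  have hχ : LevChar S (cycloChar p) := hc p S hpS
  obtain ⟨K, hK, N, hret, hL, hR⟩ := h3 p (ZMod p) S M hpS hlev
  obtain ⟨tr, hA2, hA3, hB1, hB2⟩ := h4 p hp2 S hpS K hK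
  have hαN : AlphaTwoEpi tr N := alphaTwoEpi_of_devL h1a h2 tr hχ K ⟨hA2, hA3⟩ N hL
  have hβN : BetaOneEpi tr N := betaOneEpi_of_devR h1b h2 tr hχ K ⟨hB1, hB2⟩ N hR
  have hr := h2 (ZMod p) S (cycloChar p) tr M N hret
  exact h5 p S M hyp tr (hr.1 hαN) (hr.2.2.1 hβN)

end Fermat.Agent.S55
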